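import Mathlib.Tactic.Ring
import Mathlib.Tactic.LinearCombination
import Mathlib.Algebra.Ring.Defs

/-!
Shared definitions for the S52 project (3-5 switch): Klein's icosahedral forms in the variables
p = u1^5, q = u2^5, and the Rubin-Silverberg polynomials rsA, rsB describing the family
E_s : y^2 = x^3 + 27 (rsA H T s) x + 54 (rsB H T s) whose 5-torsion is that of E_0.
-/

set_option autoImplicit false

namespace Fermat.Agent.S52

variable {R : Type*} [CommRing R]

/-- Klein's form `H` (degree 20 in `u`), written in `p = u1^5`, `q = u2^5`. -/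
def kH (p q : R) : R := -(p^4 + q^4) + 228 * (p^3 * q - p * q^3) - 494 * p^2 * q^2

/-- Klein's form `T` (degree 30 in `u`), written in `p = u1^5`, `q = u2^5`. -/
def kT (p q : R) : R := (p^6 + q^6) + 522 * (p^5 * q - p * q^5) - 10005 * (p^4 * q^2 + p^2 * q^4)

/-- Klein's form `f` (degree 12 in `u`). -/
def kf (u1 u2 : R) : R := u1 * u2 * (u1^10 + 11 * u1^5 * u2^5 - u2^10)

/-- first component of the covariant `w = (df/du2, -df/du1)`. -/
def kw1 (u1 u2 : R) : R := u1^11 + 66 * u1^6 * u2^5 - 11 * u1 * u2^10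

/-- second component of the covariant `w = (df/du2, -df/du1)`. -/
def kw2 (u1 u2 : R) : R := -(11 * u1^10 * u2 + 66 * u1^5 * u2^6 - u2^11)

/-- coefficient of `s^1` in `rsA`. -/
def rsAc1 (_H T : R) : R := -20 * T

/-- coefficient of `s^2` in `rsA`. -/
def rsAc2 (H _T : R) : R := -190 * H^2

/-- coefficient of `s^3` in `rsA`. -/
def rsAc3 (H T : R) : R := 1140 * H * T

/-- coefficient of `s^4` in `rsA`. -/
def rsAc4 (H T : R) : R := -5700 * T^2 - 855 * H^3

/-- coefficient of `s^5` in `rsA`. -/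
def rsAc5 (H T : R) : R := -15504 * H^2 * T

/-- coefficient of `s^6` in `rsA`. -/
def rsAc6 (H T : R) : R := -63840 * H * T^2 - 102600 * H^4

/-- coefficient of `s^7` in `rsA`. -/
def rsAc7 (H T : R) : R := 182400 * T^3 + 259920 * H^3 * T

/-- coefficient of `s^8` in `rsA`. -/
def rsAc8 (H T : R) : R := -1126320 * H^2 * T^2 - 1000350 * H^5

/-- coefficient of `s^9` in `rsA`. -/
def rsAc9 (H T : R) : R := 7904000 * H * T^3 + 7736040 * H^4 * T

/-- coefficient of `s^10` in `rsA`. -/
def rsAc10 (H T : R) : R := -15808000 * T^4 - 5619744 * H^3 * T^2 + 10003500 * H^6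

/-- coefficient of `s^11` in `rsA`. -/
def rsAc11 (H T : R) : R := -54853760 * H^2 * T^3 - 54685800 * H^5 * T

/-- coefficient of `s^12` in `rsA`. -/
def rsAc12 (H T : R) : R := 37939200 * H * T^4 - 7202520 * H^4 * T^2 - 45015750 * H^7

/-- coefficient of `s^13` in `rsA`. -/
def rsAc13 (H T : R) : R := -58368000 * T^5 - 23201280 * H^3 * T^3 + 35089200 * H^6 * T

/-- coefficient of `s^14` in `rsA`. -/
def rsAc14 (H T : R) : R := -287462400 * H^2 * T^4 - 495188640 * H^5 * T^2 - 207765000 * H^8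

/-- coefficient of `s^15` in `rsA`. -/
def rsAc15 (H T : R) : R := 466944000 * H * T^5 + 882458496 * H^4 * T^3 + 415530000 * H^7 * T

/-- coefficient of `s^16` in `rsA`. -/
def rsAc16 (H T : R) : R := -583680000 * T^6 - 1220474880 * H^3 * T^4 - 714711600 * H^6 * T^2 - 77911875 * H^9

/-- coefficient of `s^17` in `rsA`. -/
def rsAc17 (H T : R) : R := -361881600 * H^2 * T^5 - 715080960 * H^5 * T^3 - 353200500 * H^8 * T

/-- coefficient of `s^18` in `rsA`. -/
def rsAc18 (H T : R) : R := -622592000 * H * T^6 - 2026391040 * H^4 * T^4 - 2182917600 * H^7 * T^2 - 779118750 * H^10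

/-- coefficient of `s^19` in `rsA`. -/
def rsAc19 (H T : R) : R := 655360000 * T^7 + 2005401600 * H^3 * T^5 + 2044414080 * H^6 * T^3 + 694372500 * H^9 * T

/-- coefficient of `s^20` in `rsA`. -/
def rsAc20 (H T : R) : R := 180224000 * H^2 * T^6 + 544997376 * H^5 * T^4 + 549301500 * H^8 * T^2 + 184528125 * H^11

/-- coefficient of `s^1` in `rsB`. -/
def rsBc1 (H _T : R) : R := 30 * H^2

/-- coefficient of `s^2` in `rsB`. -/
def rsBc2 (H T : R) : R := -435 * H * T

/-- coefficient of `s^3` in `rsB`. -/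
def rsBc3 (H T : R) : R := 2900 * T^2 - 1160 * H^3

/-- coefficient of `s^4` in `rsB`. -/
def rsBc4 (H T : R) : R := 27405 * H^2 * T

/-- coefficient of `s^5` in `rsB`. -/
def rsBc5 (H T : R) : R := -46980 * H * T^2 + 95526 * H^4

/-- coefficient of `s^6` in `rsB`. -/
def rsBc6 (H T : R) : R := 156600 * T^3 - 437175 * H^3 * T

/-- coefficient of `s^7` in `rsB`. -/
def rsBc7 (H T : R) : R := 3915000 * H^2 * T^2 + 1879200 * H^5

/-- coefficient of `s^8` in `rsB`. -/
def rsBc8 (H T : R) : R := -14407200 * H * T^3 - 8554275 * H^4 * T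

/-- coefficient of `s^9` in `rsB`. -/
def rsBc9 (H T : R) : R := 32016000 * T^4 + 42021000 * H^3 * T^2 + 24312150 * H^6

/-- coefficient of `s^10` in `rsB`. -/
def rsBc10 (H T : R) : R := -216588240 * H^2 * T^3 - 246633255 * H^5 * T

/-- coefficient of `s^11` in `rsB`. -/
def rsBc11 (H T : R) : R := 1459929600 * H * T^4 + 1352475900 * H^4 * T^2 - 162081000 * H^7

/-- coefficient of `s^12` in `rsB`. -/
def rsBc12 (H T : R) : R := -2433216000 * T^5 + 1612005600 * H^3 * T^3 + 4131714825 * H^6 * T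

/-- coefficient of `s^13` in `rsB`. -/
def rsBc13 (H T : R) : R := -12044419200 * H^2 * T^4 - 5235216300 * H^5 * T^2 + 6928962750 * H^8

/-- coefficient of `s^14` in `rsB`. -/
def rsBc14 (H T : R) : R := -43045111800 * H^4 * T^3 - 43190534475 * H^7 * T

/-- coefficient of `s^15` in `rsB`. -/
def rsBc15 (H T : R) : R := 79420170240 * H^3 * T^4 + 79575287760 * H^6 * T^2

/-- coefficient of `s^16` in `rsB`. -/
def rsBc16 (H T : R) : R := -297825638400 * H^2 * T^5 - 474659611200 * H^5 * T^3 - 176688550125 * H^8 * T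

/-- coefficient of `s^17` in `rsB`. -/
def rsBc17 (H T : R) : R := 700766208000 * H * T^6 + 935084908800 * H^4 * T^4 - 77604382800 * H^7 * T^2 - 311803323750 * H^10

/-- coefficient of `s^18` in `rsB`. -/
def rsBc18 (H T : R) : R := -778629120000 * T^7 + 303665356800 * H^3 * T^5 + 2776512362400 * H^6 * T^3 + 1694131392375 * H^9 * T

/-- coefficient of `s^19` in `rsB`. -/
def rsBc19 (H T : R) : R := -4290656256000 * H^2 * T^6 - 8100765158400 * H^5 * T^4 - 3481840250100 * H^8 * T^2 + 328214025000 * H^11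

/-- coefficient of `s^20` in `rsB`. -/
def rsBc20 (H T : R) : R := 3442360320000 * H * T^7 + 3892110842880 * H^4 * T^5 - 2424887357760 * H^7 * T^3 - 2874607835625 * H^10 * T

/-- coefficient of `s^21` in `rsB`. -/
def rsBc21 (H T : R) : R := -3278438400000 * T^8 - 5125838438400 * H^3 * T^6 - 2709129888000 * H^6 * T^4 - 3077188825500 * H^9 * T^2 - 2215444668750 * H^12

/-- coefficient of `s^22` in `rsB`. -/
def rsBc22 (H T : R) : R := -4573421568000 * H^2 * T^7 - 7701051801600 * H^5 * T^5 - 1724509423800 * H^8 * T^3 + 1403114956875 * H^11 * T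

/-- coefficient of `s^23` in `rsB`. -/
def rsBc23 (H T : R) : R := -6157762560000 * H * T^8 - 30337884979200 * H^4 * T^6 - 49888700928000 * H^7 * T^4 - 33414470973000 * H^10 * T^2 - 7705894500000 * H^13

/-- coefficient of `s^24` in `rsB`. -/
def rsBc24 (H T : R) : R := 5131468800000 * T^9 + 22779445248000 * H^3 * T^7 + 35246094796800 * H^6 * T^5 + 22687218914400 * H^9 * T^3 + 5089101159375 * H^12 * T

/-- coefficient of `s^25` in `rsB`. -/
def rsBc25 (H T : R) : R := -18216714240000 * H^2 * T^8 - 71274600677376 * H^5 * T^6 - 105528606261120 * H^8 * T^4 - 70097953635000 * H^11 * T^2 - 17627233668750 * H^14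

/-- coefficient of `s^26` in `rsB`. -/
def rsBc26 (H T : R) : R := 41051750400000 * H * T^9 + 163803539865600 * H^4 * T^7 + 245438120632320 * H^7 * T^5 + 163672057566000 * H^10 * T^3 + 40985726371875 * H^13 * T

/-- coefficient of `s^27` in `rsB`. -/
def rsBc27 (H T : R) : R := -30408704000000 * T^10 - 111934439424000 * H^3 * T^8 - 143803576074240 * H^6 * T^6 - 63806176396800 * H^9 * T^4 + 8104032382500 * H^12 * T^2 + 9632368125000 * H^15

/-- coefficient of `s^28` in `rsB`. -/
def rsBc28 (H T : R) : R := -21438136320000 * H^2 * T^9 - 85731449241600 * H^5 * T^7 - 128580522647040 * H^8 * T^5 - 85719228804000 * H^11 * T^3 - 21432019078125 * H^14 * T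

/-- coefficient of `s^29` in `rsB`. -/
def rsBc29 (H T : R) : R := -5033164800000 * H * T^10 - 31344427008000 * H^4 * T^8 - 75042714746880 * H^7 * T^6 - 87394892457600 * H^10 * T^4 - 49873523512500 * H^13 * T^2 - 11210083593750 * H^16

/-- coefficient of `s^30` in `rsB`. -/
def rsBc30 (H T : R) : R := 3355443200000 * T^11 + 17532190720000 * H^3 * T^9 + 36574189977600 * H^6 * T^7 + 38083944628224 * H^9 * T^5 + 19796866155000 * H^12 * T^3 + 4110363984375 * H^15 * T

/-- `(rsA H T s - H) / s`. -/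
def rsA1 (H T s : R) : R := rsAc1 H T + s * (rsAc2 H T + s * (rsAc3 H T + s * (rsAc4 H T + s * (rsAc5 H T + s * (rsAc6 H T + s * (rsAc7 H T + s * (rsAc8 H T + s * (rsAc9 H T + s * (rsAc10 H T + s * (rsAc11 H T + s * (rsAc12 H T + s * (rsAc13 H T + s * (rsAc14 H T + s * (rsAc15 H T + s * (rsAc16 H T + s * (rsAc17 H T + s * (rsAc18 H T + s * (rsAc19 H T + s * (rsAc20 H T)))))))))))))))))))

/-- `(rsB H T s - T) / s`. -/
def rsB1 (H T s : R) : R := rsBc1 H T + s * (rsBc2 H T + s * (rsBc3 H T + s * (rsBc4 H T + s * (rsBc5 H T + s * (rsBc6 H T + s * (rsBc7 H T + s * (rsBc8 H T + s * (rsBc9 H T + s * (rsBc10 H T + s * (rsBc11 H T + s * (rsBc12 H T + s * (rsBc13 H T + s * (rsBc14 H T + s * (rsBc15 H T + s * (rsBc16 H T + s * (rsBc17 H T + s * (rsBc18 H T + s * (rsBc19 H T + s * (rsBc20 H T + s * (rsBc21 H T + s * (rsBc22 H T + s * (rsBc23 H T + s * (rsBc24 H T + s * (rsBc25 H T + s * (rsBc26 H T + s * (rsBc27 H T + s * (rsBc28 H T + s * (rsBc29 H T + s * (rsBc30 H T)))))))))))))))))))))))))))))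

/-- Rubin-Silverberg polynomial: `kH` of `v + s * w(v)` in terms of `H = kH v`, `T = kT v`. -/
def rsA (H T s : R) : R := H + s * rsA1 H T s

/-- Rubin-Silverberg polynomial: `kT` of `v + s * w(v)` in terms of `H = kH v`, `T = kT v`. -/
def rsB (H T s : R) : R := T + s * rsB1 H T s

/-- `kf (v + s * w(v)) = kf v * kPhi (kH v) (kT v) s`; the discriminant of the family is
`Delta_s = Delta_0 * kPhi^5`. -/
def kPhi (H T s : R) : R :=
    1 + 66 * s^2 * H - 440 * s^3 * T - 1485 * s^4 * H^2 + 3168 * s^5 * H * T - 10560 * s^6 * T^2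
        - 5940 * s^6 * H^3 - 4752 * s^7 * H^2 * T - 63360 * s^8 * H * T^2 - 66825 * s^8 * H^4
        + 140800 * s^9 * T^3 + 142560 * s^9 * H^3 * T + 133056 * s^10 * H^2 * T^2 + 133650 * s^10 * H^5
        - 61440 * s^11 * H * T^3 - 61560 * s^11 * H^4 * T + 102400 * s^12 * T^4 + 193536 * s^12 * H^3 * T^2
        + 91125 * s^12 * H^6

end Fermat.Agent.S52
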