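import Fermat.Agent.S52.Defs

/-!
# S52 project: the Rubin-Silverberg identity for `kH` (proved by `ring`, about 4 minutes)
-/

set_option autoImplicit false

namespace Fermat.Agent.S52

variable {R : Type*} [CommRing R]

set_option maxHeartbeats 4000000 in
/-- `kH (v + s w(v)) = rsA (kH v) (kT v) s`, in the variables `p = u1^5`, `q = u2^5`. -/
theorem rsA_spec_pq (p q s : R) :
    kH (p * (1 + s * (p^2 + 66*p*q - 11*q^2))^5) (q * (1 - s * (11*p^2 + 66*p*q - q^2))^5)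
      = rsA (kH p q) (kT p q) s := by
  simp only [kH, kT, rsA, rsA1, rsAc1, rsAc2, rsAc3, rsAc4, rsAc5, rsAc6, rsAc7, rsAc8, rsAc9, rsAc10,
    rsAc11, rsAc12, rsAc13, rsAc14, rsAc15, rsAc16, rsAc17, rsAc18, rsAc19, rsAc20]
  ring

/-- `kH (v + s w(v)) = rsA (kH v) (kT v) s`. -/
theorem rsA_spec (u1 u2 s : R) :
    kH ((u1 + s * kw1 u1 u2) ^ 5) ((u2 + s * kw2 u1 u2) ^ 5)
      = rsA (kH (u1 ^ 5) (u2 ^ 5)) (kT (u1 ^ 5) (u2 ^ 5)) s := by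
  have h1 : (u1 + s * kw1 u1 u2) ^ 5
      = u1 ^ 5 * (1 + s * ((u1 ^ 5) ^ 2 + 66 * u1 ^ 5 * u2 ^ 5 - 11 * (u2 ^ 5) ^ 2)) ^ 5 := by
    simp only [kw1]; ring
  have h2 : (u2 + s * kw2 u1 u2) ^ 5
      = u2 ^ 5 * (1 - s * (11 * (u1 ^ 5) ^ 2 + 66 * u1 ^ 5 * u2 ^ 5 - (u2 ^ 5) ^ 2)) ^ 5 := by
    simp only [kw2]; ring
  rw [h1, h2]
  exact rsA_spec_pq _ _ _

end Fermat.Agent.S52
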