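import Fermat.Agent.S52.Basic
import Fermat.Agent.S52.RsA
import Fermat.Agent.S52.ALG.Klein
import Fermat.Agent.S52.ALG.KfSpec
import Fermat.Agent.S52.ALG.RsDisc
import Fermat.Agent.S52.ALG.RsB
import Fermat.Agent.S52.ALG.Model
import Fermat.Agent.S52.ALG.KleinParam
import Fermat.Agent.S52.ALG.RsNotBothZero
import Fermat.Agent.S52.ALG.Semistable

/-!
# S52 project, package ALG: the interface theorems

Assembly (helper6492) of: `Klein`, `KfSpec`, `RsDisc`, `RsB` (domain trick), `Model` (helper6492);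
`KleinParam`, `RsNotBothZero` (helper1572); `Map`, `Semistable` (helper2472).
`rsA_spec` is imported from `Fermat/Agent/S52/RsA.lean` (helper5692).
-/

set_option autoImplicit false

open WeierstrassCurve WeierstrassCurve.Affine

namespace Fermat.Agent.S52

theorem switchModel_c₄ (W : WeierstrassCurve ℤ) (m : ℤ) :
    (switchModel W m).c₄ = -rsA (-W.c₄) (-W.c₆) (10368 * m) :=
  ALG.Model.c₄_eq W m

theorem switchModel_c₆ (W : WeierstrassCurve ℤ) (m : ℤ) :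
    (switchModel W m).c₆ = -rsB (-W.c₄) (-W.c₆) (10368 * m) :=
  ALG.Model.c₆_eq W m

theorem switchModel_Δ (W : WeierstrassCurve ℤ) (m : ℤ) :
    (switchModel W m).Δ = W.Δ * kPhi (-W.c₄) (-W.c₆) (10368 * m) ^ 5 :=
  ALG.Model.Δ_eq W m

theorem switchModel_map (W : WeierstrassCurve ℤ) (m : ℤ) (n : ℕ) (hn : (n : ℤ) ∣ 6 * m) :
    (switchModel W m).map (Int.castRingHom (ZMod n)) = W.map (Int.castRingHom (ZMod n)) :=
  ALG.Model.map_eq W m n hn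

theorem switchModel_Δ_ne_zero (W : WeierstrassCurve ℤ) (hΔ : W.Δ ≠ 0) (m : ℤ) (hm : m ≠ 0) :
    (switchModel W m).Δ ≠ 0 :=
  ALG.Model.Δ_ne_zero W hΔ m hm

section identities

variable {R : Type*} [CommRing R]

theorem rsB_spec (u1 u2 s : R) :
    kT ((u1 + s * kw1 u1 u2) ^ 5) ((u2 + s * kw2 u1 u2) ^ 5)
      = rsB (kH (u1 ^ 5) (u2 ^ 5)) (kT (u1 ^ 5) (u2 ^ 5)) s :=
  ALG.RsB.of_rsA_spec (fun a b c => rsA_spec a b c) u1 u2 s

theorem kf_spec (u1 u2 s : R) :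
    kf (u1 + s * kw1 u1 u2) (u2 + s * kw2 u1 u2)
      = kf u1 u2 * kPhi (kH (u1 ^ 5) (u2 ^ 5)) (kT (u1 ^ 5) (u2 ^ 5)) s :=
  ALG.KfSpec.kf_spec_aux u1 u2 s

theorem rs_disc (H T s : R) :
    rsA H T s ^ 3 + rsB H T s ^ 2 = (H ^ 3 + T ^ 2) * kPhi H T s ^ 5 :=
  ALG.RsDisc.rs_disc_aux H T s

theorem klein_rel (u1 u2 : R) :
    kT (u1 ^ 5) (u2 ^ 5) ^ 2 + kH (u1 ^ 5) (u2 ^ 5) ^ 3 = 1728 * kf u1 u2 ^ 5 :=
  ALG.Klein.klein_rel_aux u1 u2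

end identities

theorem exists_klein_param {K : Type*} [Field K] [IsAlgClosed K] (h2 : (2 : K) ≠ 0)
    (h3 : (3 : K) ≠ 0) (h5 : (5 : K) ≠ 0) (H0 T0 : K) (h : H0 ^ 3 + T0 ^ 2 ≠ 0) :
    ∃ u1 u2 : K, kH (u1 ^ 5) (u2 ^ 5) = H0 ∧ kT (u1 ^ 5) (u2 ^ 5) = T0 :=
  ALG.KleinParam.exists_klein_param h2 h3 h5 H0 T0 h

theorem rs_not_both_zero {K : Type*} [Field K] (h2 : (2 : K) ≠ 0) (h3 : (3 : K) ≠ 0)
    (h5 : (5 : K) ≠ 0) (H0 T0 s : K) (h : H0 ^ 3 + T0 ^ 2 ≠ 0) :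
    ¬ (rsA H0 T0 s = 0 ∧ rsB H0 T0 s = 0) :=
  ALG.RsNBZ.of_specs h2 h3 h5 (fun a b c => rsA_spec a b c) (fun a b c => rsB_spec a b c)
    (fun a b => klein_rel a b) H0 T0 s h

theorem switchModel_isSemistable (W : WeierstrassCurve ℤ) (hΔ : W.Δ ≠ 0)
    (hW : W.IsSemistableModel) (m : ℤ) (hm : 5 * W.Δ ∣ m) :
    (switchModel W m).IsSemistableModel :=
  ALG.Semistable.isSemistable W hW m hm (switchModel_c₄ W m) (switchModel_c₆ W m)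
    (switchModel_Δ W m) (fun _ _ h2 h3 h5 H0 T0 s h => rs_not_both_zero h2 h3 h5 H0 T0 s h)

end Fermat.Agent.S52
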