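import Fermat.Agent.S52.ALG
import Fermat.Agent.S52.TOR.Level5
import Fermat.Agent.S52.TOR.Zariski8829

/-!
# S52 / package TOR : torsion transfer (top file)

`torsion_transfer` from
* `TOR.exists_level5` (explicit level-5 structure `κ_u` on `E_u`, file `TOR/Level5.lean`),
* `TOR.Zariski.exists_relabel` (helper8829, file `TOR/Zariski8829.lean`),
* the ALG interface: `exists_klein_param`, `klein_rel`, `rsA_spec`, `rsB_spec`, `kf_spec`, `rs_disc`.
-/

set_option autoImplicit false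

open WeierstrassCurve WeierstrassCurve.Affine

namespace Fermat.Agent.S52.TOR

open Fermat.Agent.S52 Polynomial

section maps

variable {R S : Type*} [CommRing R] [CommRing S] (f : R →+* S)

lemma map_rsA (H T s : R) : f (rsA H T s) = rsA (f H) (f T) (f s) := by
  simp only [rsA, rsA1, rsAc1, rsAc2, rsAc3, rsAc4, rsAc5, rsAc6, rsAc7, rsAc8, rsAc9, rsAc10,
    rsAc11, rsAc12, rsAc13, rsAc14, rsAc15, rsAc16, rsAc17, rsAc18, rsAc19, rsAc20,
    map_add, map_sub, map_mul, map_pow, map_ofNat, map_neg]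

lemma map_rsB (H T s : R) : f (rsB H T s) = rsB (f H) (f T) (f s) := by
  simp only [rsB, rsB1, rsBc1, rsBc2, rsBc3, rsBc4, rsBc5, rsBc6, rsBc7, rsBc8, rsBc9, rsBc10,
    rsBc11, rsBc12, rsBc13, rsBc14, rsBc15, rsBc16, rsBc17, rsBc18, rsBc19, rsBc20,
    rsBc21, rsBc22, rsBc23, rsBc24, rsBc25, rsBc26, rsBc27, rsBc28, rsBc29, rsBc30,
    map_add, map_sub, map_mul, map_pow, map_ofNat, map_neg]

lemma map_kPhi (H T s : R) : f (kPhi H T s) = kPhi (f H) (f T) (f s) := by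
  simp only [kPhi, map_add, map_sub, map_mul, map_pow, map_ofNat, map_one]

lemma kPhi_zero (H T : R) : kPhi H T 0 = 1 := by
  simp [kPhi]

end maps

/-- Two affine points with equal coordinates are equal. -/
lemma some_congr {K : Type*} [Field K] {W : Affine K} {x y x' y' : K} (h : W.Nonsingular x y)
    (h' : W.Nonsingular x' y') (hx : x = x') (hy : y = y') :
    Point.some x y h = Point.some x' y' h' := by
  subst hx hy; rfl

section families

variable {K : Type*} [Field K]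

/-- x-coordinates of the level structure along the line `v + σ w`, as polynomials in `σ`. -/
noncomputable def famX (z i5 v1 v2 w1 w2 : K) (m : ZMod 5 × ZMod 5) : K[X] :=
  secX m (C z) (C i5) (C v1 + X * C w1) (C v2 + X * C w2)

/-- y-coordinates of the level structure along the line `v + σ w`, as polynomials in `σ`. -/
noncomputable def famY (z i5 v1 v2 w1 w2 : K) (m : ZMod 5 × ZMod 5) : K[X] :=
  secY m (C z) (C i5) (C v1 + X * C w1) (C v2 + X * C w2)

lemma famX_eval (z i5 v1 v2 w1 w2 : K) (m : ZMod 5 × ZMod 5) (σ : K) :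
    (famX z i5 v1 v2 w1 w2 m).eval σ = secX m z i5 (v1 + σ * w1) (v2 + σ * w2) := by
  unfold famX
  rw [← coe_evalRingHom, map_secX]
  simp only [coe_evalRingHom, eval_add, eval_mul, eval_C, eval_X]

lemma famY_eval (z i5 v1 v2 w1 w2 : K) (m : ZMod 5 × ZMod 5) (σ : K) :
    (famY z i5 v1 v2 w1 w2 m).eval σ = secY m z i5 (v1 + σ * w1) (v2 + σ * w2) := by
  unfold famY
  rw [← coe_evalRingHom, map_secY]
  simp only [coe_evalRingHom, eval_add, eval_mul, eval_C, eval_X]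

/-- The polynomial `kPhi(H, T, σ)` in `σ`. -/
noncomputable def badPoly (H T : K) : K[X] := kPhi (C H) (C T) X

lemma badPoly_eval (H T σ : K) : (badPoly H T).eval σ = kPhi H T σ := by
  unfold badPoly
  rw [← coe_evalRingHom, map_kPhi]
  simp only [coe_evalRingHom, eval_C, eval_X]

lemma badPoly_ne_zero (H T : K) : badPoly H T ≠ 0 := by
  intro h
  have := badPoly_eval H T 0
  rw [h, kPhi_zero] at this
  simp at this

end families

end Fermat.Agent.S52.TOR

namespace Fermat.Agent.S52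

open Polynomial TOR

/-- Frobenius-equivariant identification of (25-element subgroups of) the 5-torsion of `E` and `E_s`. -/
theorem torsion_transfer (ℓ : ℕ) [Fact ℓ.Prime] (hℓ : 7 ≤ ℓ) (H0 T0 s : ZMod ℓ)
    (h0 : H0 ^ 3 + T0 ^ 2 ≠ 0) (h1 : rsA H0 T0 s ^ 3 + rsB H0 T0 s ^ 2 ≠ 0) :
    ∃ (F : ZMod 5 × ZMod 5 → ZMod 5 × ZMod 5)
      (i : ZMod 5 × ZMod 5 →+ ((shortW (27 * H0) (54 * T0)).toAffine⁄(Fbar ℓ)).Point)
      (i' : ZMod 5 × ZMod 5 →+
        ((shortW (27 * rsA H0 T0 s) (54 * rsB H0 T0 s)).toAffine⁄(Fbar ℓ)).Point),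
      Function.Injective i ∧ Function.Injective i' ∧
      (∀ m, frobPt ℓ (shortW (27 * H0) (54 * T0)) (i m) = i (F m)) ∧
      (∀ m, frobPt ℓ (shortW (27 * rsA H0 T0 s) (54 * rsB H0 T0 s)) (i' m) = i' (F m)) := by
  classical
  -- notation
  set φ : ZMod ℓ →+* Fbar ℓ := algebraMap (ZMod ℓ) (Fbar ℓ) with hφ
  have hφinj : Function.Injective φ := φ.injective
  set Fr : Fbar ℓ →+* Fbar ℓ := (FiniteField.frobeniusAlgHom (ZMod ℓ) (Fbar ℓ)).toRingHom with hFr
  have hFrφ : ∀ a : ZMod ℓ, Fr (φ a) = φ a := fun a =>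
    (FiniteField.frobeniusAlgHom (ZMod ℓ) (Fbar ℓ)).commutes a
  have hFrinj : Function.Injective Fr := Fr.injective
  -- small numbers are nonzero
  have hnat : ∀ n : ℕ, 0 < n → n < ℓ → ((n : ℕ) : Fbar ℓ) ≠ 0 := by
    intro n hn0 hnl h
    have h' : φ ((n : ℕ) : ZMod ℓ) = 0 := by rw [map_natCast]; exact h
    have h'' : ((n : ℕ) : ZMod ℓ) = 0 := hφinj (by rw [h', map_zero])
    rw [ZMod.natCast_eq_zero_iff] at h''
    exact absurd (Nat.le_of_dvd hn0 h'') (not_le.mpr hnl)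
  have h2 : (2 : Fbar ℓ) ≠ 0 := by exact_mod_cast hnat 2 (by norm_num) (by omega)
  have h3 : (3 : Fbar ℓ) ≠ 0 := by exact_mod_cast hnat 3 (by norm_num) (by omega)
  have h5 : (5 : Fbar ℓ) ≠ 0 := by exact_mod_cast hnat 5 (by norm_num) (by omega)
  have h15 : (15 : Fbar ℓ) ≠ 0 := by
    have : (15 : Fbar ℓ) = 3 * 5 := by norm_num
    rw [this]; exact mul_ne_zero h3 h5
  -- a primitive 5th root of unity
  obtain ⟨z, hz⟩ : ∃ z : Fbar ℓ, z ^ 4 + z ^ 3 + z ^ 2 + z + 1 = 0 := by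
    have hdeg : (X ^ 4 + X ^ 3 + X ^ 2 + X + 1 : (Fbar ℓ)[X]).degree ≠ 0 := by
      have hnd : (X ^ 4 + X ^ 3 + X ^ 2 + X + 1 : (Fbar ℓ)[X]).natDegree = 4 := by compute_degree!
      exact degree_ne_of_natDegree_ne (by rw [hnd]; norm_num)
    obtain ⟨z, hz⟩ := IsAlgClosed.exists_root _ hdeg
    refine ⟨z, ?_⟩
    simpa using hz
  -- the Klein parameter
  have h0' : (φ H0) ^ 3 + (φ T0) ^ 2 ≠ 0 := by
    rw [← map_pow, ← map_pow, ← map_add]
    exact fun h => h0 (hφinj (by rw [h, map_zero]))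
  obtain ⟨v1, v2, hH, hT⟩ := exists_klein_param h2 h3 h5 (φ H0) (φ T0) h0'
  have hkf : kf v1 v2 ≠ 0 := by
    intro h
    have := klein_rel v1 v2
    rw [hH, hT, h] at this
    apply h0'
    rw [add_comm]
    rw [this]; ring
  -- Frobenius twists
  have hz' : (Fr z) ^ 4 + (Fr z) ^ 3 + (Fr z) ^ 2 + (Fr z) + 1 = 0 := by
    have := congrArg Fr hz
    simpa only [map_add, map_pow, map_one, map_zero] using this
  have hH' : kH ((Fr v1) ^ 5) ((Fr v2) ^ 5) = φ H0 := by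
    rw [← map_pow, ← map_pow, ← map_kH, hH, hFrφ]
  have hT' : kT ((Fr v1) ^ 5) ((Fr v2) ^ 5) = φ T0 := by
    rw [← map_pow, ← map_pow, ← map_kT, hT, hFrφ]
  have hkf' : kf (Fr v1) (Fr v2) ≠ 0 := by
    rw [← map_kf]
    exact fun h => hkf (hFrinj (by rw [h, map_zero]))
  -- the two polynomial families of level structures on `E σ`
  set i5 : Fbar ℓ := (5 : Fbar ℓ)⁻¹ with hi5
  have hFri5 : Fr i5 = i5 := by
    rw [hi5, map_inv₀, map_ofNat]
  set w1 : Fbar ℓ := kw1 v1 v2 with hw1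
  set w2 : Fbar ℓ := kw2 v1 v2 with hw2
  have hFrw1 : kw1 (Fr v1) (Fr v2) = Fr w1 := by rw [hw1, map_kw1]
  have hFrw2 : kw2 (Fr v1) (Fr v2) = Fr w2 := by rw [hw2, map_kw2]
  let E : Fbar ℓ → WeierstrassCurve (Fbar ℓ) := fun σ =>
    shortW (27 * rsA (φ H0) (φ T0) σ) (54 * rsB (φ H0) (φ T0) σ)
  have h₁ : ∀ σ, (badPoly (φ H0) (φ T0)).eval σ ≠ 0 →
      ∃ κ : ZMod 5 × ZMod 5 →+ (E σ).toAffine.Point, Function.Injective κ ∧
        ∀ m, m ≠ 0 → ∃ h, κ m = Point.some ((famX z i5 v1 v2 w1 w2 m).eval σ)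
          ((famY z i5 v1 v2 w1 w2 m).eval σ) h := by
    intro σ hσ
    rw [badPoly_eval] at hσ
    have hf : kf (v1 + σ * w1) (v2 + σ * w2) ≠ 0 := by
      rw [hw1, hw2, kf_spec, hH, hT]
      exact mul_ne_zero hkf hσ
    obtain ⟨κ, hinj, hκ⟩ := exists_level5 h2 h3 h5 z (v1 + σ * w1) (v2 + σ * w2) hz hf (E σ)
      rfl rfl rfl (by
        show 27 * rsA (φ H0) (φ T0) σ = _
        rw [hw1, hw2, rsA_spec, hH, hT]) (by
        show 54 * rsB (φ H0) (φ T0) σ = _
        rw [hw1, hw2, rsB_spec, hH, hT])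
    refine ⟨κ, hinj, fun m hm => ?_⟩
    obtain ⟨h, e⟩ := hκ m hm
    rw [famX_eval, famY_eval]
    exact ⟨h, e⟩
  have h₂ : ∀ σ, (badPoly (φ H0) (φ T0)).eval σ ≠ 0 →
      ∃ κ : ZMod 5 × ZMod 5 →+ (E σ).toAffine.Point, Function.Injective κ ∧
        ∀ m, m ≠ 0 → ∃ h, κ m =
          Point.some ((famX (Fr z) i5 (Fr v1) (Fr v2) (Fr w1) (Fr w2) m).eval σ)
            ((famY (Fr z) i5 (Fr v1) (Fr v2) (Fr w1) (Fr w2) m).eval σ) h := by
    intro σ hσ
    rw [badPoly_eval] at hσ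
    have hf : kf (Fr v1 + σ * Fr w1) (Fr v2 + σ * Fr w2) ≠ 0 := by
      rw [← hFrw1, ← hFrw2, kf_spec, hH', hT']
      exact mul_ne_zero hkf' hσ
    obtain ⟨κ, hinj, hκ⟩ := exists_level5 h2 h3 h5 (Fr z) (Fr v1 + σ * Fr w1)
      (Fr v2 + σ * Fr w2) hz' hf (E σ)
      rfl rfl rfl (by
        show 27 * rsA (φ H0) (φ T0) σ = _
        rw [← hFrw1, ← hFrw2, rsA_spec, hH', hT']) (by
        show 54 * rsB (φ H0) (φ T0) σ = _
        rw [← hFrw1, ← hFrw2, rsB_spec, hH', hT'])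
    refine ⟨κ, hinj, fun m hm => ?_⟩
    obtain ⟨h, e⟩ := hκ m hm
    rw [famX_eval, famY_eval]
    exact ⟨h, e⟩
  have : Infinite (Fbar ℓ) := IsAlgClosed.instInfinite
  obtain ⟨g, hg0, hg⟩ := Zariski.exists_relabel h15 E (badPoly (φ H0) (φ T0))
    (badPoly_ne_zero _ _) _ _ _ _ h₁ h₂
  -- the level structure on `E`
  have hf0 : kf v1 v2 ≠ 0 := hkf
  obtain ⟨κ0, hinj0, hκ0⟩ := exists_level5 h2 h3 h5 z v1 v2 hz hkf
    ((shortW (27 * H0) (54 * T0)).toAffine⁄(Fbar ℓ))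
    (by simp) (by simp) (by simp)
    (by
      show φ (27 * H0) = _
      rw [hH, map_mul, map_ofNat])
    (by
      show φ (54 * T0) = _
      rw [hT, map_mul, map_ofNat])
  -- the level structure on `E_s`
  have hPhi : kPhi (φ H0) (φ T0) (φ s) ≠ 0 := by
    rw [← map_kPhi]
    intro h
    have h' : kPhi H0 T0 s = 0 := hφinj (by rw [h, map_zero])
    apply h1
    rw [rs_disc, h']
    ring
  have hfs : kf (v1 + φ s * w1) (v2 + φ s * w2) ≠ 0 := by
    rw [hw1, hw2, kf_spec, hH, hT]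
    exact mul_ne_zero hkf hPhi
  obtain ⟨κ1, hinj1, hκ1⟩ := exists_level5 h2 h3 h5 z (v1 + φ s * w1) (v2 + φ s * w2) hz hfs
    ((shortW (27 * rsA H0 T0 s) (54 * rsB H0 T0 s)).toAffine⁄(Fbar ℓ))
    (by simp) (by simp) (by simp)
    (by
      show φ (27 * rsA H0 T0 s) = _
      rw [hw1, hw2, rsA_spec, hH, hT, map_mul, map_ofNat, map_rsA])
    (by
      show φ (54 * rsB H0 T0 s) = _
      rw [hw1, hw2, rsB_spec, hH, hT, map_mul, map_ofNat, map_rsB])
  refine ⟨g, κ0, κ1, hinj0, hinj1, ?_, ?_⟩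
  · intro m
    by_cases hm : m = 0
    · subst hm
      rw [hg0, map_zero, map_zero]
    · obtain ⟨hgm, hx, hy⟩ := hg m hm
      obtain ⟨h, e⟩ := hκ0 m hm
      obtain ⟨h', e'⟩ := hκ0 (g m) hgm
      rw [e, e']
      have hx0 := congrArg (Polynomial.eval 0) hx
      have hy0 := congrArg (Polynomial.eval 0) hy
      rw [famX_eval, famX_eval] at hx0
      rw [famY_eval, famY_eval] at hy0
      simp only [zero_mul, add_zero] at hx0 hy0
      refine some_congr _ _ ?_ ?_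
      · show Fr (secX m z i5 v1 v2) = _
        rw [map_secX, hFri5, hx0]
      · show Fr (secY m z i5 v1 v2) = _
        rw [map_secY, hFri5, hy0]
  · intro m
    by_cases hm : m = 0
    · subst hm
      rw [hg0, map_zero, map_zero]
    · obtain ⟨hgm, hx, hy⟩ := hg m hm
      obtain ⟨h, e⟩ := hκ1 m hm
      obtain ⟨h', e'⟩ := hκ1 (g m) hgm
      rw [e, e']
      have hx0 := congrArg (Polynomial.eval (φ s)) hx
      have hy0 := congrArg (Polynomial.eval (φ s)) hy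
      rw [famX_eval, famX_eval] at hx0
      rw [famY_eval, famY_eval] at hy0
      refine some_congr _ _ ?_ ?_
      · show Fr (secX m z i5 (v1 + φ s * w1) (v2 + φ s * w2)) = _
        rw [map_secX, hFri5, map_add, map_add, map_mul, map_mul, hFrφ, hx0]
      · show Fr (secY m z i5 (v1 + φ s * w1) (v2 + φ s * w2)) = _
        rw [map_secY, hFri5, map_add, map_add, map_mul, map_mul, hFrφ, hy0]

end Fermat.Agent.S52
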