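import Fermat.Agent.S52.B
import Fermat.Agent.S52.TOR
import Fermat.Agent.S52.ALG
import Fermat.Agent.S52.GLUE.Psi3
import Fermat.Agent.S52.GLUE.Trace
import Fermat.Agent.S52.GLUE.Ap

/-!
# S52 / GLUE: top file of package GLUE (squad 56, lead helper56).

Interface theorems proved by this package:
* `psi3_shortModel`  (in `GLUE/Psi3.lean`)
* `card_shortModel`  (in `GLUE/ShortModel.lean`)
* `trace_congr`      (here; from `frobenius_relation` (package B) and `torsion_transfer` (package TOR))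
* `switch_ap_congr`  (here; from `switchModel_map`, `switchModel_c₄`, `switchModel_c₆` (package ALG))
-/

set_option autoImplicit false

open WeierstrassCurve WeierstrassCurve.Affine

namespace Fermat.Agent.S52

/-- Congruence of traces mod 5 in the family, from `frobenius_relation` + `torsion_transfer`. -/
theorem trace_congr (ℓ : ℕ) [Fact ℓ.Prime] (hℓ : 7 ≤ ℓ) (H0 T0 s : ZMod ℓ)
    (h0 : H0 ^ 3 + T0 ^ 2 ≠ 0) (h1 : rsA H0 T0 s ^ 3 + rsB H0 T0 s ^ 2 ≠ 0) :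
    (5 : ℤ) ∣ (shortW (27 * rsA H0 T0 s) (54 * rsB H0 T0 s)).traceOfFrobenius
      - (shortW (27 * H0) (54 * T0)).traceOfFrobenius := by
  obtain ⟨F, i, i', hi, hi', hF, hF'⟩ := torsion_transfer ℓ hℓ H0 T0 s h0 h1
  have hℓ5 : 5 ≤ ℓ := by omega
  exact GLUE.trace_congr_abstract (frobPt ℓ (shortW (27 * H0) (54 * T0)))
    (frobPt ℓ (shortW (27 * rsA H0 T0 s) (54 * rsB H0 T0 s)))
    (shortW (27 * H0) (54 * T0)).traceOfFrobenius
    (shortW (27 * rsA H0 T0 s) (54 * rsB H0 T0 s)).traceOfFrobenius ℓ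
    (GLUE.not_five_dvd ℓ hℓ)
    (frobenius_relation ℓ hℓ5 _ _ (GLUE.short_disc_ne_zero ℓ hℓ5 H0 T0 h0))
    (frobenius_relation ℓ hℓ5 _ _ (GLUE.short_disc_ne_zero ℓ hℓ5 _ _ h1))
    F i i' hi hi' hF hF'

/-- The `a_ℓ`-congruence for the switched model at every common good prime `ℓ ≠ 5`. -/
theorem switch_ap_congr (W : WeierstrassCurve ℤ) (m : ℤ) (ℓ : ℕ) (hℓ : ℓ.Prime) (h5 : ℓ ≠ 5)
    (hg : W.IsGoodPrimeFor ℓ) (hg' : (switchModel W m).IsGoodPrimeFor ℓ) :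
    (5 : ℤ) ∣ (switchModel W m).apOfModel ℓ - W.apOfModel ℓ :=
  GLUE.switch_ap_congr_of switchModel_map switchModel_c₄ switchModel_c₆
    (fun ℓ _ hℓ H0 T0 s h0 h1 => trace_congr ℓ hℓ H0 T0 s h0 h1) W m ℓ hℓ h5 hg hg'

end Fermat.Agent.S52
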