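import Fermat.Agent.S52.IRR.Assemble9555
import Fermat.Agent.S52.ALG

/-!
# S52 / package IRR : top file

The interface theorem `exists_param_no_rat_root` of package IRR (statement of `Interface.lean`), from the
assembly `IRR.Asm9555.exists_param_no_rat_root_of` (K1 + K2 helper8823, K3 + K4 helper9243, K5 helper8835,
glue helper9555) and the three ALG interface facts `kf_spec`, `rs_disc`, `exists_klein_param`.
-/

set_option autoImplicit false

namespace Fermat.Agent.S52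

/-- There is a parameter in `M ℤ` for which `ψ₃` of the switched short model has no rational root. -/
theorem exists_param_no_rat_root (H0 T0 : ℤ) (h0 : H0 ^ 3 + T0 ^ 2 ≠ 0) (M : ℤ) (hM : M ≠ 0)
    (x0 : ℚ) (hx0 : 3 * x0 ^ 4 + 6 * (27 * (H0 : ℚ)) * x0 ^ 2 + 12 * (54 * (T0 : ℚ)) * x0
      - (27 * (H0 : ℚ)) ^ 2 = 0) :
    ∃ s : ℤ, M ∣ s ∧ s ≠ 0 ∧ ∀ x : ℚ,
      3 * x ^ 4 + 6 * (27 * (rsA H0 T0 s : ℚ)) * x ^ 2 + 12 * (54 * (rsB H0 T0 s : ℚ)) * x
        - (27 * (rsA H0 T0 s : ℚ)) ^ 2 ≠ 0 :=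
  IRR.Asm9555.exists_param_no_rat_root_of
    (fun _ _ u1 u2 s => kf_spec u1 u2 s) (fun _ _ H T s => rs_disc H T s)
    (fun _ _ _ h2 h3 h5 H0 T0 h => exists_klein_param h2 h3 h5 H0 T0 h) H0 T0 h0 M hM x0 hx0

end Fermat.Agent.S52
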