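import Mathlib.Tactic.Ring
import Mathlib.Tactic.LinearCombination
import Mathlib.Algebra.Ring.Defs

/-!
# S52 project: explicit 5-torsion sections of the universal curve over X(5) (data; do not edit)

Universal curve `E_u : y^2 = x^3 + 27 kH(u1^5,u2^5) x + 54 kT(u1^5,u2^5)`.
* `P(u) = (secXP u1 u2, secYP u1 u2)`, `2P(u) = (secX2P u1 u2, secY2P u1 u2)`: integer forms of degree 10, 15.
* `Q(u) = (secXQ5 z p q / 5, secYQ5 z p q / 5)` with `p = u1^5`, `q = u2^5`, `z` a primitive 5th root of unity;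
  `m • Q` is obtained by replacing `z` with `z^m`.
* `P(z^2 u1, z^3 u2) = P(u) + Q(u)`.
All identities are verified by exact computation (scripts in `notes/S52/`).
-/

set_option autoImplicit false

namespace Fermat.Agent.S52

variable {R : Type*} [CommRing R]

/-- `x(P)`, a form of degree 10 in `u`. -/
def secXP (u1 u2 : R) : R :=
    3 * u1^10 - 36 * u1^9 * u2 + 72 * u1^8 * u2^2 - 108 * u1^7 * u2^3 + 180 * u1^6 * u2^4
        - 90 * u1^5 * u2^5 + 72 * u1^4 * u2^6 + 36 * u1^3 * u2^7 + 36 * u1^2 * u2^8 + 3 * u2^10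

/-- `y(P)`, a form of degree 15 in `u`. -/
def secYP (u1 u2 : R) : R :=
    -108 * u1^14 * u2 + 432 * u1^13 * u2^2 - 972 * u1^12 * u2^3 + 1620 * u1^11 * u2^4
        - 2700 * u1^10 * u2^5 + 3132 * u1^9 * u2^6 - 2268 * u1^8 * u2^7 + 648 * u1^7 * u2^8
        - 540 * u1^6 * u2^9 - 432 * u1^4 * u2^11 + 108 * u1^3 * u2^12 - 108 * u1^2 * u2^13

/-- `x(2P)`. -/
def secX2P (u1 u2 : R) : R :=
    3 * u1^10 + 36 * u1^8 * u2^2 - 36 * u1^7 * u2^3 + 72 * u1^6 * u2^4 + 90 * u1^5 * u2^5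
        + 180 * u1^4 * u2^6 + 108 * u1^3 * u2^7 + 72 * u1^2 * u2^8 + 36 * u1 * u2^9 + 3 * u2^10

/-- `y(2P)`. -/
def secY2P (u1 u2 : R) : R :=
    108 * u1^13 * u2^2 + 108 * u1^12 * u2^3 + 432 * u1^11 * u2^4 + 540 * u1^9 * u2^6
        + 648 * u1^8 * u2^7 + 2268 * u1^7 * u2^8 + 3132 * u1^6 * u2^9 + 2700 * u1^5 * u2^10
        + 1620 * u1^4 * u2^11 + 972 * u1^3 * u2^12 + 432 * u1^2 * u2^13 + 108 * u1 * u2^14

/-- `5 * x(Q)`, a quadratic form in `p = u1^5`, `q = u2^5` with coefficients in `Z[z]`. -/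
def secXQ5 (z p q : R) : R :=
    36 * z^3 * p^2 + 36 * z^2 * p^2 - 57 * p^2 + 396 * z^3 * p * q + 396 * z^2 * p * q + 198 * p * q
        - 36 * z^3 * q^2 - 36 * z^2 * q^2 - 93 * q^2

/-- `5 * y(Q)`, a cubic form in `p = u1^5`, `q = u2^5` with coefficients in `Z[z]`. -/
def secYQ5 (z p q : R) : R :=
    -108 * z^3 * p^3 - 324 * z^2 * p^3 - 432 * z * p^3 - 216 * p^3 - 1512 * z^3 * p^2 * q
        - 3456 * z^2 * p^2 * q - 4968 * z * p^2 * q - 2484 * p^2 * q - 3456 * z^3 * p * q^2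
        + 1512 * z^2 * p * q^2 - 1944 * z * p * q^2 - 972 * p * q^2 + 324 * z^3 * q^3
        - 108 * z^2 * q^3 + 216 * z * q^3 + 108 * q^3

end Fermat.Agent.S52
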