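import Mathlib
import Fermat.Statements.S52
import Fermat.Agent.S52.Defs

/-!
# S52 project: shared basic definitions (import this; do not edit)

`shortW`, `Fbar`, `frobPt`, `switchModel`.
-/

set_option autoImplicit false

open WeierstrassCurve WeierstrassCurve.Affine

namespace Fermat.Agent.S52

/-- The short Weierstrass curve `y^2 = x^3 + A x + B`. -/
abbrev shortW {R : Type*} [CommRing R] (A B : R) : WeierstrassCurve R := ⟨0, 0, 0, A, B⟩

/-- The algebraic closure of `F_ℓ` used throughout. -/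
abbrev Fbar (ℓ : ℕ) [Fact ℓ.Prime] : Type := AlgebraicClosure (ZMod ℓ)

/-- Classical decidable equality on `Fbar ℓ` (needed for the group law on points). -/
noncomputable instance instDecidableEqFbar (ℓ : ℕ) [Fact ℓ.Prime] : DecidableEq (Fbar ℓ) :=
  Classical.decEq _

/-- Frobenius on the `Fbar ℓ`-points of a curve over `ZMod ℓ`. -/
noncomputable def frobPt (ℓ : ℕ) [Fact ℓ.Prime] (E : WeierstrassCurve (ZMod ℓ)) :
    (E.toAffine⁄(Fbar ℓ)).Point →+ (E.toAffine⁄(Fbar ℓ)).Point :=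
  Point.map (W' := E.toAffine) (FiniteField.frobeniusAlgHom (ZMod ℓ) (Fbar ℓ))

/-- The switched integral model: same `a₁, a₂, a₃`, and
`c₄' = -rsA (-c₄) (-c₆) s`, `c₆' = -rsB (-c₄) (-c₆) s` with `s = 10368 m`. -/
def switchModel (W : WeierstrassCurve ℤ) (m : ℤ) : WeierstrassCurve ℤ :=
  ⟨W.a₁, W.a₂, W.a₃, W.a₄ + 216 * m * rsA1 (-W.c₄) (-W.c₆) (10368 * m),
   W.a₆ + 6 * m * (3 * W.b₂ * rsA1 (-W.c₄) (-W.c₆) (10368 * m)
     + 2 * rsB1 (-W.c₄) (-W.c₆) (10368 * m))⟩

end Fermat.Agent.S52
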