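import Fermat.Agent.S52.Frob.B4
import Fermat.Agent.S52.Frob.Transfer8525

/-!
# S52, package B: the Frobenius relation `φ² - aφ + ℓ = 0` on `E(Fbar ℓ)`

Interface theorem `frobenius_relation` (exact statement of `Interface.lean`, tree v1).

Assembly (helper8525) on helper9015's `Frob` skeleton:
* `Frob/Defs.lean`, `Frob/Natural.lean`, `Frob/QuadAbs.lean`, `Frob/B4.lean` : helper9015 (unchanged)
* `Frob/B0.lean` (the `k(x)`-points form a Frobenius-stable subgroup, `xdeg` lemmas) : helper8525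
* `Frob/B1.lean` (parallelogram law) : helper7505, on `B/HtPar7515.lean` (helper7515) and
  `B/AddSubX.lean` (helper2533)
* `Frob/B2.lean` (degrees of `φ` and of `φ - 1`) : helper8525, on `B/Manin7085.lean` (helper7085)
* `Frob/B3.lean` (substitution of a point for the generic point) : helper8353, on
  `B/RDeg2412.lean` (helper2412)
* `Frob/Transfer8525.lean` (transfer from the generic point to `E(Fbar ℓ)`) : helper8525
-/

set_option autoImplicit false

open WeierstrassCurve WeierstrassCurve.Affine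

namespace Fermat.Agent.S52

/-- Frobenius satisfies `φ² - aφ + ℓ = 0` on `E(Fbar)`, `a = ℓ + 1 - #E(F_ℓ)`. -/
theorem frobenius_relation (ℓ : ℕ) [Fact ℓ.Prime] (hℓ : 5 ≤ ℓ) (A B : ZMod ℓ)
    (hΔ : 4 * A ^ 3 + 27 * B ^ 2 ≠ 0) (P : ((shortW A B).toAffine⁄(Fbar ℓ)).Point) :
    frobPt ℓ (shortW A B) (frobPt ℓ (shortW A B) P)
      - (shortW A B).traceOfFrobenius • frobPt ℓ (shortW A B) P + (ℓ : ℤ) • P = 0 :=
  Frob.T8525.frobenius_relation_of_generic ℓ A B hℓ (Frob.psiPt_pgen ℓ A B hℓ hΔ) P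

end Fermat.Agent.S52
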